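import Mathlib.Algebra.Polynomial.RuleOfSigns
import Mathlib.Data.Real.Basic
import Mathlib.LinearAlgebra.Matrix.Adjugate
import Mathlib.LinearAlgebra.Matrix.ToLinearEquiv

/-!
# Integer weights on given nodes

A polynomial with `m` monomials has fewer than `m` positive roots, so for positive nodes
`v ∈ V` and exponents `{1} ∪ I` in equal number the matrix `v ^ k` is invertible: integer weights
annihilate the `v ^ k`, `k ∈ I`, and not `v`.
-/

set_option autoImplicit false

noncomputable section

open Finset Polynomial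

namespace FA.ZetaOddMany

theorem signVariations_lt_card_support {P : ℝ[X]} (hP : P ≠ 0) :
    P.signVariations < P.support.card := by
  induction h : P.support.card using Nat.strong_induction_on generalizing P with
  | _ c ih =>
    rcases eq_or_ne P.eraseLead 0 with h0 | h0
    · have h1 := signVariations_le_eraseLead_succ P
      have h2 : P.signVariations = 0 := by
        rw [← eraseLead_add_monomial_natDegree_leadingCoeff P, h0, zero_add,
          signVariations_monomial]
      rw [h2, ← h]
      exact card_pos.2 (nonempty_support_iff.2 hP)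
    · have hlt := eraseLead_support_card_lt hP
      have := ih _ (h ▸ hlt) h0 rfl
      have := signVariations_le_eraseLead_succ P
      omega

/-- A polynomial with `m` monomials has fewer than `m` positive roots. -/
theorem card_pos_roots_lt {P : ℝ[X]} (hP : P ≠ 0) (V : Finset ℝ)
    (hV : ∀ v ∈ V, 0 < v ∧ P.eval v = 0) : V.card < P.support.card := by
  refine lt_of_le_of_lt (le_trans ?_ (roots_countP_pos_le_signVariations P))
    (signVariations_lt_card_support hP)
  rw [Multiset.countP_eq_card_filter]
  refine Multiset.card_le_card ((Multiset.le_iff_subset V.nodup).2 fun v hv => ?_)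
  exact Multiset.mem_filter.2 ⟨(mem_roots hP).2 (hV v hv).2, (hV v hv).1⟩

/-- **Weights.** -/
theorem exists_weights (V I : Finset ℕ) (hV : ∀ v ∈ V, 0 < v) (h1 : 1 ∉ I)
    (hcard : I.card + 1 = V.card) :
    ∃ w : ℕ → ℤ, (∀ k ∈ I, ∑ v ∈ V, (w v : ℝ) * (v : ℝ) ^ k = 0) ∧
      ∑ v ∈ V, (w v : ℝ) * (v : ℝ) ≠ 0 := by
  classical
  set J := insert 1 I with hJ
  obtain ⟨e⟩ : Nonempty (V ≃ J) :=
    ⟨Finset.equivOfCardEq (by rw [hJ, card_insert_of_notMem h1, hcard])⟩
  set M : Matrix V V ℤ := fun i j => ((i : ℕ) : ℤ) ^ ((e j : J) : ℕ) with hM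
  set MR : Matrix V V ℝ := fun i j => ((i : ℕ) : ℝ) ^ ((e j : J) : ℕ) with hMR
  have hMmap : MR = M.map (Int.castRingHom ℝ) := by ext i j; simp [hM, hMR]
  have hdet : M.det ≠ 0 := by
    intro h0
    have : MR.det = 0 := by rw [hMmap, ← RingHom.mapMatrix_apply, ← RingHom.map_det, h0, map_zero]
    obtain ⟨c, hc, hmul⟩ := Matrix.exists_mulVec_eq_zero_iff.2 this
    set P : ℝ[X] := ∑ j : V, monomial ((e j : J) : ℕ) (c j) with hP
    have hinj : Function.Injective fun j : V => ((e j : J) : ℕ) :=
      Subtype.val_injective.comp e.injective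
    have hcoeff : ∀ j : V, P.coeff ((e j : J) : ℕ) = c j := fun j => by
      rw [hP, finsetSum_coeff, Fintype.sum_eq_single j fun i hi => ?_, coeff_monomial, if_pos rfl]
      rw [coeff_monomial, if_neg (hinj.ne hi)]
    have hP0 : P ≠ 0 := fun h => hc (funext fun j => by rw [← hcoeff j, h, coeff_zero]; rfl)
    have hsupp : P.support.card ≤ V.card := by
      refine le_trans (card_le_card (t := univ.image fun j : V => ((e j : J) : ℕ)) fun k hk => ?_)
        (card_image_le.trans_eq (by simp))
      by_contra hk'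
      refine mem_support_iff.1 hk ?_
      rw [hP, finsetSum_coeff]
      refine sum_eq_zero fun j _ => ?_
      rw [coeff_monomial, if_neg fun h => hk' (mem_image.2 ⟨j, mem_univ _, h⟩)]
    have := card_pos_roots_lt hP0 (V.image fun v : ℕ => (v : ℝ)) fun x hx => by
      obtain ⟨v, hv, rfl⟩ := mem_image.1 hx
      refine ⟨Nat.cast_pos.2 (hV v hv), ?_⟩
      have h := congrFun hmul ⟨v, hv⟩
      simp only [Matrix.mulVec, dotProduct, hMR, Pi.zero_apply] at h
      rw [hP, eval_finsetSum, ← h]
      simp [mul_comm]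
    rw [card_image_of_injective _ Nat.cast_injective] at this
    omega
  set i₁ : V := e.symm ⟨1, mem_insert_self _ _⟩ with hi₁
  refine ⟨fun v => if h : v ∈ V then M.adjugate i₁ ⟨v, h⟩ else 0, ?_⟩
  have hrel : ∀ j : V, ∑ v ∈ V, (((if h : v ∈ V then M.adjugate i₁ ⟨v, h⟩ else 0 : ℤ)) : ℝ) *
      (v : ℝ) ^ ((e j : J) : ℕ) = ((if i₁ = j then M.det else 0 : ℤ) : ℝ) := fun j => by
    have h := congrFun (congrFun (Matrix.adjugate_mul M) i₁) j
    rw [Matrix.mul_apply, Matrix.smul_apply, Matrix.one_apply, smul_eq_mul, mul_ite, mul_one,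
      mul_zero] at h
    rw [← h, Int.cast_sum, ← sum_coe_sort V]
    exact sum_congr rfl fun i _ => by simp [hM, i.2]
  refine ⟨fun k hk => ?_, ?_⟩
  · have := hrel (e.symm ⟨k, mem_insert_of_mem hk⟩)
    rw [e.apply_symm_apply, if_neg, Int.cast_zero] at this
    · exact this
    · rw [hi₁, e.symm.injective.eq_iff, Subtype.mk.injEq]
      exact fun h => h1 (h ▸ hk)
  · have := hrel i₁
    rw [if_pos rfl, hi₁, e.apply_symm_apply] at this
    simp only [pow_one] at this
    rw [this]
    exact_mod_cast hdet

end FA.ZetaOddMany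

end
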