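import Fermat.Agent.ZetaOddMany.Order
import Fermat.Agent.ZetaOddMany.Weights

/-!
# As many irrational odd zeta values as `D` has divisors

Weights on `|I| + 1` divisors of `D` remove the exponents in `I` from the linear forms and keep the
result asymptotic to a nonzero multiple of the series.
-/

set_option autoImplicit false

noncomputable section

open Finset Filter Topology FA.ZetaOdd

namespace FA.ZetaOddMany

/-- The odd `k ≤ S` with `ζ(k)` irrational. -/
def irrationalIndices (S : ℕ) : Finset ℕ := by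
  classical exact (Icc 3 S).filter fun k => Odd k ∧ Irrational (zetaSum k)

theorem mem_irrationalIndices {S k : ℕ} :
    k ∈ irrationalIndices S ↔ (3 ≤ k ∧ k ≤ S) ∧ Odd k ∧ Irrational (zetaSum k) := by
  simp [irrationalIndices]

/-- **Fischler, Sprang, Zudilin**: the number of irrational values is at least `τ D`. -/
theorem card_divisors_le {D : ℕ} (hD2 : 2 ≤ D) (hDe : Even D) :
    D.divisors.card ≤ (irrationalIndices (poleOrder D)).card := by
  classical
  have hD1 : 1 ≤ D := by omega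
  set m := halfOrder D with hm'
  have hm := tendsto_halfOrder hD1
  set e := 2 + 2 * m with he
  set S := 3 * D + e with hS
  have hSdef : poleOrder D = S := rfl
  set I := irrationalIndices (poleOrder D) with hI
  by_contra hle
  obtain ⟨V, hVD, hVcard⟩ := exists_subset_card_eq (s := D.divisors) (n := I.card + 1) (by omega)
  have hVdvd : ∀ v ∈ V, v ∣ D := fun v hv => Nat.dvd_of_mem_divisors (hVD hv)
  have hVpos : ∀ v ∈ V, 0 < v := fun v hv => Nat.pos_of_mem_divisors (hVD hv)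
  obtain ⟨w, hwI, hW0⟩ := exists_weights V I hVpos
    (fun h => absurd (mem_irrationalIndices.1 h).1.1 (by norm_num)) hVcard.symm
  set W : ℝ := ∑ v ∈ V, (w v : ℝ) * (v : ℝ) with hW
  set B : ℝ := ∑ v ∈ V, |(w v : ℝ)| * (v : ℝ) with hB
  -- the rational values and a common denominator
  set rr : ℕ → ℚ := fun k => if h : ∃ r : ℚ, zetaSum k = r then h.choose else 0 with hrr
  set Q : ℕ := ∏ k ∈ range (S + 1), (rr k).den with hQ
  have hQ0 : 0 < Q := prod_pos fun k _ => (rr k).den_pos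
  have hQint : ∀ k ∈ range (S + 1), ∃ z : ℤ, (Q : ℝ) * (rr k : ℝ) = z := by
    intro k hk
    obtain ⟨q, hq⟩ : (rr k).den ∣ Q := dvd_prod_of_mem _ hk
    refine ⟨(q : ℤ) * (rr k).num, ?_⟩
    rw [hq, Rat.cast_def]
    have : ((rr k).den : ℝ) ≠ 0 := by exact_mod_cast (rr k).den_nz
    push_cast
    field_simp
  have hB0 : 0 ≤ B := sum_nonneg fun l _ => by positivity
  have hDr : (0 : ℝ) < D := by exact_mod_cast hD1
  set ε : ℝ := min (1 / (2 * D)) (|W| / (4 * D * (B + 1))) with hε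
  have hε0 : 0 < ε := lt_min (by positivity) (by
    have := abs_pos.2 hW0
    positivity)
  have hsmall : ∀ᶠ n : ℕ in atTop,
      (Q : ℝ) * B * ((Nat.lcmUpto n : ℝ) ^ S * gridTotal n D e) < 1 := by
    have h := hm.const_mul ((Q : ℝ) * B)
    rw [mul_zero] at h
    exact h.eventually_lt_const one_pos
  obtain ⟨n, hn, hnear, hlt⟩ := ((eventually_ge_atTop 1).and
    ((gridSum_sub_eventually_le hD2 (show 2 ≤ e by omega) hε0).and hsmall)).exists
  set d := Nat.lcmUpto n with hd
  have hd0 : 0 < d := Nat.lcmUpto_pos n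
  obtain ⟨A, hA, hA0, hform⟩ := exists_linear_forms (e := e) hn hD1 hDe ⟨1 + m, by omega⟩
    (by omega) hd0 (fun δ h h' => dvd_lcmUpto_of_le h h') fun c hc => choose_dvd_lcmUpto hc
  -- the series of the combination
  set hat : ℕ → ℝ := fun v => ∑ u ∈ range v, gridSum n D e ((u + 1) * (D / v)) with hhat
  set Λ : ℝ := ∑ v ∈ V, (w v : ℝ) * hat v with hΛ
  have hsplit : ∀ v ∈ V, D = v * (D / v) := fun v hv => (Nat.mul_div_cancel' (hVdvd v hv)).symm
  have hE : ∀ v ∈ V, ∃ E : ℝ, (∃ z : ℤ, (d : ℝ) ^ S * E = z) ∧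
      hat v = (∑ k ∈ range (S + 1), A k * (v : ℝ) ^ k * zetaSum k) - E := by
    intro v hv
    obtain ⟨E, hEz, hlim⟩ := hform v (hVdvd v hv)
    exact ⟨E, hEz, tendsto_nhds_unique (tendsto_series hn hD1 (by omega) (hsplit v hv)) hlim⟩
  choose E hEz hEq using hE
  -- it is a rational number with bounded denominator
  have hint : ∃ z : ℤ, (Q : ℝ) * (d : ℝ) ^ S * Λ = z := by
    have hk : ∀ k ∈ range (S + 1), ∃ z : ℤ, (Q : ℝ) * (d : ℝ) ^ S *
        (A k * zetaSum k * ∑ v ∈ V, (w v : ℝ) * (v : ℝ) ^ k) = z := by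
      intro k hk
      rcases eq_or_ne (A k) 0 with h | h
      · exact ⟨0, by simp [h]⟩
      obtain ⟨hodd, h3, hkS⟩ := hA0 k h
      by_cases hkI : k ∈ I
      · exact ⟨0, by rw [hwI k hkI]; simp⟩
      have hrat : ∃ r : ℚ, zetaSum k = r := by
        by_contra hne
        exact hkI (mem_irrationalIndices.2
          ⟨⟨h3, hkS⟩, hodd, fun ⟨r, hr⟩ => hne ⟨r, hr.symm⟩⟩)
      have hz : zetaSum k = (rr k : ℝ) := by
        simp only [hrr, dif_pos hrat]; exact hrat.choose_spec
      obtain ⟨z₁, hz₁⟩ := hA k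
      obtain ⟨z₂, hz₂⟩ := hQint k hk
      refine ⟨z₂ * z₁ * ∑ v ∈ V, w v * (v : ℤ) ^ k, ?_⟩
      rw [hz]
      push_cast
      rw [← hz₁, ← hz₂]
      ring
    choose zk hzk using hk
    choose zE hzE using hEz
    refine ⟨(∑ k ∈ (range (S + 1)).attach, zk k.1 k.2) -
      Q * ∑ v ∈ V.attach, w v.1 * zE v.1 v.2, ?_⟩
    have hΛ' : Λ = (∑ k ∈ (range (S + 1)).attach, A k.1 * zetaSum k.1 *
        ∑ v ∈ V, (w v : ℝ) * (v : ℝ) ^ (k.1)) -
        ∑ v ∈ V.attach, (w v.1 : ℝ) * E v.1 v.2 := by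
      rw [hΛ, ← sum_attach, sum_congr rfl fun l _ => by rw [hEq l.1 l.2, mul_sub],
        sum_sub_distrib]
      congr 1
      rw [sum_attach V fun v => (w v : ℝ) *
          ∑ k ∈ range (S + 1), A k * (v : ℝ) ^ k * zetaSum k,
        sum_attach (range (S + 1)) fun k => A k * zetaSum k * ∑ v ∈ V, (w v : ℝ) * (v : ℝ) ^ k]
      simp only [mul_sum]
      rw [sum_comm]
      exact sum_congr rfl fun k _ => sum_congr rfl fun l _ => by ring
    rw [hΛ', mul_sub]
    push_cast
    rw [mul_sum, mul_sum, mul_sum]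
    congr 1
    · exact sum_congr rfl fun k _ => hzk k.1 k.2
    · exact sum_congr rfl fun l _ => by rw [← hzE l.1 l.2]; ring
  -- it is nonzero and small
  set St := gridTotal n D e with hSt
  set rD := gridSum n D e D with hrD
  have hnn : ∀ u, 0 ≤ gridSum n D e u := fun u => tsum_nonneg fun _ => gridVal_nonneg _
  have htot : St = ∑ u ∈ range D, gridSum n D e (u + 1) := gridTotal_eq_sum hn hD1 (by omega)
  have hStpos : 0 < St := gridTotal_pos hn hD1 (by omega)
  have hidx : ∀ v ∈ V, ∀ u ∈ range v,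
      1 ≤ (u + 1) * (D / v) ∧ (u + 1) * (D / v) ≤ D := fun v hv u hu =>
    ⟨Nat.mul_pos (by omega) (Nat.div_pos (Nat.le_of_dvd (by omega) (hVdvd v hv)) (hVpos v hv)),
      (Nat.mul_le_mul_right _ (mem_range.1 hu)).trans (hsplit v hv).ge⟩
  have hrDpos : St ≤ 2 * D * rD := by
    have h1 : St ≤ ∑ _u ∈ range D, (rD + ε * St) := htot.trans_le (sum_le_sum fun u hu => by
      have := (abs_le.1 (hnear (u + 1) (by omega) (mem_range.1 hu))).2
      linarith)
    rw [sum_const, card_range, nsmul_eq_mul] at h1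
    have h2 : (D : ℝ) * ε ≤ 1 / 2 := by
      calc (D : ℝ) * ε ≤ D * (1 / (2 * D)) :=
            mul_le_mul_of_nonneg_left (min_le_left _ _) hDr.le
        _ = 1 / 2 := by field_simp
    nlinarith
  have hclose : |Λ - W * rD| ≤ B * (ε * St) := by
    rw [hΛ, hW, hB, sum_mul, ← sum_sub_distrib, sum_mul]
    refine le_trans (abs_sum_le_sum_abs _ _) (sum_le_sum fun v hv => ?_)
    rw [mul_assoc, ← mul_sub, abs_mul, mul_assoc |(w v : ℝ)|]
    refine mul_le_mul_of_nonneg_left ?_ (abs_nonneg _)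
    rw [hhat, show ((v : ℝ) * rD) = ∑ _u ∈ range v, rD by simp, ← sum_sub_distrib,
      show (v : ℝ) * (ε * St) = ∑ _u ∈ range v, ε * St by simp]
    exact le_trans (abs_sum_le_sum_abs _ _) (sum_le_sum fun u hu =>
      hnear _ (hidx v hv u hu).1 (hidx v hv u hu).2)
  have hne : Λ ≠ 0 := by
    intro h0
    rw [h0, zero_sub, abs_neg, abs_mul, abs_of_nonneg (hnn D)] at hclose
    have h1 : ε ≤ |W| / (4 * D * (B + 1)) := min_le_right _ _
    rw [le_div_iff₀ (by positivity)] at h1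
    have hWp := abs_pos.2 hW0
    have hrp : 0 < rD := by nlinarith
    have h2 : B * (ε * St) ≤ B * (ε * (2 * D * rD)) := by gcongr
    nlinarith [mul_pos hWp hrp, mul_nonneg hB0 (mul_nonneg hε0.le hrp.le)]
  have hbound : |Λ| ≤ B * St := by
    rw [hΛ, hB, sum_mul]
    refine le_trans (abs_sum_le_sum_abs _ _) (sum_le_sum fun v hv => ?_)
    rw [abs_mul, mul_assoc]
    refine mul_le_mul_of_nonneg_left ?_ (abs_nonneg _)
    rw [hhat, abs_of_nonneg (sum_nonneg fun u _ => hnn _),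
      show (v : ℝ) * St = ∑ _u ∈ range v, St by simp]
    refine sum_le_sum fun u hu => ?_
    obtain ⟨h1, h2⟩ := hidx v hv u hu
    obtain ⟨t, ht⟩ : ∃ t, (u + 1) * (D / v) = t + 1 := ⟨_, (Nat.sub_add_cancel h1).symm⟩
    rw [htot, ht]
    exact single_le_sum (f := fun v => gridSum n D e (v + 1)) (fun v _ => hnn _)
      (mem_range.2 (by omega))
  obtain ⟨z, hz⟩ := hint
  have hz0 : z ≠ 0 := by
    intro h
    rw [h, Int.cast_zero] at hz
    exact hne ((mul_eq_zero.1 hz).resolve_left (by positivity))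
  have h1 : (1 : ℝ) ≤ |(z : ℝ)| := by exact_mod_cast Int.one_le_abs hz0
  rw [← hz, abs_mul, abs_of_nonneg (show (0 : ℝ) ≤ (Q : ℝ) * (d : ℝ) ^ S by positivity)] at h1
  have h2 : (Q : ℝ) * (d : ℝ) ^ S * |Λ| ≤ (Q : ℝ) * (d : ℝ) ^ S * (B * St) :=
    mul_le_mul_of_nonneg_left hbound (by positivity)
  nlinarith [hlt]

end FA.ZetaOddMany

end
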