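import Fermat.Agent.ZetaOdd.Main

/-!
# An explicit order of the poles

`halfOrder D = O (D log D)` makes the linear forms small against their denominators.
-/

set_option autoImplicit false

noncomputable section

open Finset Filter Topology FA.ZetaOdd

namespace FA.ZetaOddMany

/-- Half the surplus order of the poles, `O (D log D)`. -/
def halfOrder (D : ℕ) : ℕ := 3 * (Nat.log 2 D + 5) * (3 * D + 2)

/-- The order of the poles. -/
def poleOrder (D : ℕ) : ℕ := 3 * D + (2 + 2 * halfOrder D)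

theorem poleOrder_le {D : ℕ} (hD : 1 ≤ D) : poleOrder D ≤ 36 * (Nat.log 2 D + 5) * D := by
  unfold poleOrder halfOrder
  generalize Nat.log 2 D = l
  nlinarith [Nat.mul_le_mul_left (l + 5) hD]

theorem halfOrder_spec {D : ℕ} (hD : 1 ≤ D) :
    (((31 : ℝ) / 40) ^ 2) ^ halfOrder D <
      ((31 / 10 : ℝ) ^ (3 * D + 2) * (3 * (D : ℝ)) ^ (3 * D))⁻¹ := by
  set L := Nat.log 2 D + 5 with hL
  set u := L * (3 * D + 2) with hu
  have hD1 : (1 : ℝ) ≤ D := by exact_mod_cast hD
  have hDL : 16 * (D : ℝ) ≤ 2 ^ L := by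
    have h := (Nat.lt_pow_succ_log_self one_lt_two D).le
    have h' : 16 * D ≤ 2 ^ L := by
      calc 16 * D ≤ 2 ^ 4 * 2 ^ (Nat.log 2 D + 1) := by omega
        _ = 2 ^ L := by rw [← pow_add]; congr 1; omega
    exact_mod_cast h'
  have hB : (31 / 10 : ℝ) ^ (3 * D + 2) * (3 * (D : ℝ)) ^ (3 * D) ≤ 2 ^ u := by
    calc (31 / 10 : ℝ) ^ (3 * D + 2) * (3 * (D : ℝ)) ^ (3 * D)
        ≤ (31 / 10 : ℝ) ^ (3 * D + 2) * (3 * (D : ℝ)) ^ (3 * D + 2) :=
          mul_le_mul_of_nonneg_left (pow_le_pow_right₀ (by linarith) (Nat.le_add_right _ _))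
            (by positivity)
      _ ≤ (16 * (D : ℝ)) ^ (3 * D + 2) := by
          rw [← mul_pow]
          exact pow_le_pow_left₀ (by positivity) (by linarith) _
      _ ≤ _ := by
          rw [hu, pow_mul]
          exact pow_le_pow_left₀ (by positivity) hDL _
  calc (((31 : ℝ) / 40) ^ 2) ^ halfOrder D = (((31 : ℝ) / 40) ^ 6) ^ u := by
        rw [← pow_mul, ← pow_mul, halfOrder, hu, hL]; congr 1; ring
    _ < (1 / 2 : ℝ) ^ u :=
        pow_lt_pow_left₀ (by norm_num) (by positivity) (by positivity)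
    _ = ((2 : ℝ) ^ u)⁻¹ := by rw [one_div, inv_pow]
    _ ≤ _ := inv_anti₀ (by positivity) hB

/-- With `halfOrder` the denominators are negligible against the size of the series. -/
theorem tendsto_halfOrder {D : ℕ} (hD : 1 ≤ D) :
    Tendsto (fun n => (Nat.lcmUpto n : ℝ) ^ (3 * D + (2 + 2 * halfOrder D)) *
      gridTotal n D (2 + 2 * halfOrder D)) atTop (𝓝 0) := by
  have hD' : (0 : ℝ) < D := by exact_mod_cast hD
  set B : ℝ := (31 / 10) ^ (3 * D + 2) * (3 * (D : ℝ)) ^ (3 * D) with hB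
  have hB0 : 0 < B := by positivity
  set m := halfOrder D
  have hm : (((31 : ℝ) / 40) ^ 2) ^ m < B⁻¹ := halfOrder_spec hD
  set β : ℝ := B * (((31 : ℝ) / 40) ^ 2) ^ m with hβ
  have hβ1 : β < 1 := by
    rw [hβ]
    calc B * (((31 : ℝ) / 40) ^ 2) ^ m < B * B⁻¹ := mul_lt_mul_of_pos_left hm hB0
      _ = 1 := mul_inv_cancel₀ hB0.ne'
  obtain ⟨C, hC0, hC⟩ := FA.Apery.exists_lcmUpto_le
  set S := 3 * D + (2 + 2 * m) with hS
  set K : ℝ := C ^ S * 3 * (2 : ℝ) ^ (2 * m) * (D : ℝ) ^ 2 * zetaSum 2 with hK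
  refine squeeze_zero' (g := fun n : ℕ => K * ((n : ℝ) ^ (2 * m) * β ^ n)) ?_ ?_ ?_
  · exact Eventually.of_forall fun n => mul_nonneg (by positivity) gridTotal_nonneg
  · filter_upwards [eventually_ge_atTop 1] with n hn
    have hn' : (0 : ℝ) < n := by exact_mod_cast hn
    have hz : 0 ≤ zetaSum 2 := tsum_nonneg fun _ => by positivity
    have hcb : (4 : ℝ) ^ n / (2 * n) ≤ n.centralBinom := by
      rw [div_le_iff₀ (by positivity)]
      have := Nat.four_pow_le_two_mul_self_mul_centralBinom n hn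
      calc (4 : ℝ) ^ n ≤ ((2 * n * n.centralBinom : ℕ) : ℝ) := by exact_mod_cast this
        _ = _ := by push_cast; ring
    calc (Nat.lcmUpto n : ℝ) ^ S * gridTotal n D (2 + 2 * m)
        ≤ (C * (31 / 10) ^ n) ^ S * (3 * (3 * D) ^ (3 * D * n) /
            ((4 : ℝ) ^ n / (2 * n)) ^ (2 * m) * (D : ℝ) ^ 2 * zetaSum 2) := by
          refine mul_le_mul ?_ ?_ gridTotal_nonneg (by positivity)
          · exact pow_le_pow_left₀ (Nat.cast_nonneg _) (hC n) S
          · refine le_trans (gridTotal_le hn hD (2 * m)) ?_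
            gcongr
      _ = K * ((n : ℝ) ^ (2 * m) * β ^ n) := by
          have hβ' : β = ((31 : ℝ) / 10) ^ S * (3 * (D : ℝ)) ^ (3 * D) / (4 : ℝ) ^ (2 * m) := by
            rw [hβ, hB, ← pow_mul, show ((31 : ℝ) / 40) = 31 / 10 / 4 by norm_num, hS,
              show 3 * D + (2 + 2 * m) = 3 * D + 2 + 2 * m by ring,
              pow_add _ (3 * D + 2) (2 * m), div_pow _ (4 : ℝ)]
            ring
          rw [hK, hβ']
          generalize (31 : ℝ) / 10 = a
          generalize (3 : ℝ) * (D : ℝ) = T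
          simp only [mul_pow, div_pow, ← pow_mul]
          field_simp
          ring
  · have h := (tendsto_pow_const_mul_const_pow_of_lt_one (2 * m) (r := β) (by positivity)
      hβ1).const_mul K
    rwa [mul_zero] at h

end FA.ZetaOddMany

end
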