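import Fermat.Agent.Nicolas.Basic
import Fermat.Agent.ZetaOddMany.Main

/-!
# Choosing `D`

For `x = (1 - δ) log s` the product `D` of the primes up to `x` has `log D = θ x ≤ (1 - δ²) log s`,
so the order of the poles is at most `s`, and `2 ^ π x` divisors with
`π x ≥ θ x / log x ≥ (1 - 2 δ) log s / log log s`.
-/

set_option autoImplicit false

noncomputable section

open Finset Filter
open scoped Chebyshev Topology

namespace FA.ZetaOddMany

theorem card_divisors_primorial (n : ℕ) :
    (primorial n).divisors.card = 2 ^ (Nat.primesLE n).card := by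
  rw [Nat.card_divisors (primorial_ne_zero n), primeFactors_primorial,
    prod_congr rfl fun p hp => ?_, prod_const]
  have hp' : p ∈ (primorial n).primeFactors := by rwa [primeFactors_primorial]
  obtain ⟨hpp, hdvd, -⟩ := Nat.mem_primeFactors.1 hp'
  have h1 := (squarefree_primorial n).natFactorization_le_one p
  have h2 := hpp.factorization_pos_of_dvd (primorial_ne_zero n) hdvd
  omega

theorem theta_le_card_mul_log (x : ℝ) (hx : 2 ≤ x) :
    θ x ≤ ((Nat.primesLE ⌊x⌋₊).card : ℝ) * Real.log x := by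
  rw [Chebyshev.theta_eq_log_primorial, primorial_eq_prod_primesLE, Nat.cast_prod,
    Real.log_prod fun p hp => by exact_mod_cast (Nat.prime_of_mem_primesLE hp).ne_zero,
    ← nsmul_eq_mul]
  refine sum_le_card_nsmul _ _ _ fun p hp => Real.log_le_log
    (by exact_mod_cast (Nat.prime_of_mem_primesLE hp).pos) ?_
  exact le_trans (Nat.cast_le.2 (Nat.le_of_mem_primesLE hp)) (Nat.floor_le (by linarith))

theorem irrationalIndices_mono {S T : ℕ} (h : S ≤ T) :
    irrationalIndices S ⊆ irrationalIndices T := fun k hk => by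
  rw [mem_irrationalIndices] at hk ⊢
  exact ⟨⟨hk.1.1, hk.1.2.trans h⟩, hk.2⟩

/-- At least `2 ^ ((1 - ε) log s / log log s)` irrational values. -/
theorem eventually_le_card {ε : ℝ} (hε : 0 < ε) :
    ∀ᶠ s : ℕ in atTop, (2 : ℝ) ^ ((1 - ε) * Real.log s / Real.log (Real.log s)) ≤
      (irrationalIndices s).card := by
  set δ := min (ε / 2) (1 / 2) with hδ
  have hδ0 : 0 < δ := lt_min (by linarith) (by norm_num)
  have hδ2 : δ ≤ 1 / 2 := min_le_right _ _
  have hδε : 2 * δ ≤ ε := by linarith [min_le_left (ε / 2) (1 / 2)]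
  have hlog : Tendsto (fun s : ℕ => Real.log s) atTop atTop :=
    Real.tendsto_log_atTop.comp tendsto_natCast_atTop_atTop
  have hx : Tendsto (fun s : ℕ => (1 - δ) * Real.log s) atTop atTop :=
    hlog.const_mul_atTop (by linarith)
  have hθ := hx.eventually (Metric.tendsto_nhds.1 FA.Nicolas.tendsto_theta_sub_div δ hδ0)
  filter_upwards [hθ, hx.eventually_ge_atTop 2, hlog.eventually_ge_atTop 2,
    hlog.eventually_ge_atTop (504 / (δ ^ 2) ^ 2), eventually_ge_atTop 1] with s hθs hx2 hl2 hl hs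
  set ℓ := Real.log s with hℓ
  set x := (1 - δ) * ℓ with hxdef
  have hx0 : 0 < x := by linarith
  rw [Real.dist_eq, sub_zero, abs_div, abs_of_pos hx0, div_lt_iff₀ hx0, abs_lt] at hθs
  set D := primorial ⌊x⌋₊ with hD
  have hfl : 2 ≤ ⌊x⌋₊ := Nat.le_floor (by exact_mod_cast hx2)
  have h2D : 2 ∣ D := (Nat.prime_two.dvd_primorial_iff).2 hfl
  have hD2 : 2 ≤ D := Nat.le_of_dvd (primorial_pos _) h2D
  have hlogD : Real.log D ≤ (1 - δ ^ 2) * ℓ := by
    rw [hD, ← Chebyshev.theta_eq_log_primorial]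
    calc θ x ≤ (1 + δ) * x := by linarith
      _ = (1 - δ ^ 2) * ℓ := by rw [hxdef]; ring
  have hS : poleOrder D ≤ s := by
    refine (poleOrder_le (by omega)).trans ?_
    set L := Nat.log 2 D with hL
    have hLle : (L : ℝ) ≤ 2 * ℓ := by
      have h1 : (2 : ℝ) ^ L ≤ D := by exact_mod_cast Nat.pow_log_le_self 2 (by omega : D ≠ 0)
      have h2 := Real.log_le_log (by positivity) h1
      rw [Real.log_pow] at h2
      nlinarith [Real.log_two_gt_d9, mul_nonneg (sq_nonneg δ) (by linarith : (0 : ℝ) ≤ ℓ),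
        (Nat.cast_nonneg L : (0 : ℝ) ≤ L)]
    have hDexp : (D : ℝ) ≤ Real.exp ((1 - δ ^ 2) * ℓ) := by
      rw [← Real.exp_log (show (0 : ℝ) < D by exact_mod_cast (by omega : 0 < D))]
      exact Real.exp_le_exp.2 hlogD
    have hexp : 36 * ((L : ℝ) + 5) ≤ Real.exp (δ ^ 2 * ℓ) := by
      refine le_trans ?_ (Real.quadratic_le_exp_of_nonneg (by positivity))
      rw [div_le_iff₀ (by positivity)] at hl
      nlinarith [mul_le_mul_of_nonneg_left hl (by linarith : (0 : ℝ) ≤ ℓ)]
    have : ((36 * (L + 5) * D : ℕ) : ℝ) ≤ (s : ℝ) := by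
      push_cast
      calc 36 * ((L : ℝ) + 5) * D ≤ Real.exp (δ ^ 2 * ℓ) * Real.exp ((1 - δ ^ 2) * ℓ) :=
            mul_le_mul hexp hDexp (Nat.cast_nonneg _) (Real.exp_pos _).le
        _ = s := by
          rw [← Real.exp_add, show δ ^ 2 * ℓ + (1 - δ ^ 2) * ℓ = ℓ by ring, hℓ,
            Real.exp_log (by exact_mod_cast hs)]
    exact_mod_cast this
  set c := (Nat.primesLE ⌊x⌋₊).card with hc
  have hcard : 2 ^ c ≤ (irrationalIndices s).card :=
    (card_divisors_primorial _).symm.le.trans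
      ((card_divisors_le hD2 (even_iff_two_dvd.2 h2D)).trans
        (card_le_card (irrationalIndices_mono hS)))
  have hk : (1 - ε) * ℓ / Real.log ℓ ≤ c := by
    have hll : 0 < Real.log ℓ := Real.log_pos (by linarith)
    rw [div_le_iff₀ hll]
    have h1 := theta_le_card_mul_log x hx2
    have h2 : Real.log x ≤ Real.log ℓ := Real.log_le_log hx0 (by nlinarith)
    have h3 := mul_le_mul_of_nonneg_left h2 (Nat.cast_nonneg c : (0 : ℝ) ≤ c)
    rw [← hc] at h1
    nlinarith [mul_nonneg (mul_nonneg hδ0.le hδ0.le) (by linarith : (0 : ℝ) ≤ ℓ),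
      mul_le_mul_of_nonneg_right hδε (by linarith : (0 : ℝ) ≤ ℓ)]
  refine le_trans (Real.rpow_le_rpow_of_exponent_le one_le_two hk) ?_
  rw [Real.rpow_natCast]
  exact_mod_cast hcard

end FA.ZetaOddMany

end
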